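import Fermat.Agent.S23
import Fermat.Prelude.Def_FormalHecke_Eigensystem
import Fermat.Prelude.Def_CuspForm_IntegralLattice

/-!
# Formal eigensystems with prescribed eigenvalues at the primes, and integral bases (helper93)
-/

set_option autoImplicit false

namespace Fermat.Agent.Ext.E46

open FormalHecke

/-! ### (A) integral bases -/

theorem hasIntegralBasis (N : ℕ) [NeZero N] : CuspForm.HasIntegralBasis N := by
  have h := Fermat.Agent.S23.result N
  unfold CuspForm.HasIntegralStructure CuspForm.intLattice at h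
  rw [CuspForm.HasIntegralBasis, eq_top_iff, ← h, Submodule.span_le]
  intro f hf
  refine Submodule.span_induction ?_ (zero_mem _) (fun x y _ _ hx hy => add_mem hx hy)
    (fun n x _ hx => ?_) hf
  · intro x hx
    refine Submodule.subset_span fun n => ?_
    obtain ⟨m, hm⟩ := hx n
    rw [hm]
    exact Subring.mem_bot.mpr ⟨m, rfl⟩
  · exact (Submodule.span ℂ (CuspForm.qIntegralSet N)).toAddSubgroup.zsmul_mem hx n

/-! ### (C) formal eigensystems -/

section Exists

variable {R : Type*} [CommRing R] (e c : ℕ → R)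

/-- the values at the powers of a prime -/
def ppow (ℓ : ℕ) : ℕ → R
  | 0 => 1
  | 1 => c ℓ
  | (r + 2) => c ℓ * ppow ℓ (r + 1) - e ℓ * ppow ℓ r

theorem ppow_succ (ℓ k : ℕ) :
    ppow e c ℓ (k + 1) + e ℓ * (if k = 0 then 0 else ppow e c ℓ (k - 1)) =
      c ℓ * ppow e c ℓ k := by
  rcases k with _ | k
  · simp [ppow]
  · rw [if_neg (Nat.succ_ne_zero k), ppow, Nat.add_sub_cancel]
    ring

/-- the multiplicative extension -/
def eig (n : ℕ) : R :=
  if n = 0 then 0 else n.factorization.prod fun p k => ppow e c p k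

theorem eig_zero : eig e c 0 = 0 := if_pos rfl

theorem eig_one : eig e c 1 = 1 := by
  rw [eig, if_neg one_ne_zero, Nat.factorization_one, Finsupp.prod_zero_index]

theorem eig_pow_mul {ℓ : ℕ} (hℓ : ℓ.Prime) (k : ℕ) {m : ℕ} (hm : ¬ ℓ ∣ m) :
    eig e c (ℓ ^ k * m) = ppow e c ℓ k * eig e c m := by
  have hm0 : m ≠ 0 := by rintro rfl; exact hm (dvd_zero _)
  have hk0 : ℓ ^ k ≠ 0 := pow_ne_zero _ hℓ.ne_zero
  have hco : Nat.Coprime (ℓ ^ k) m := Nat.Coprime.pow_left _ ((Nat.Prime.coprime_iff_not_dvd hℓ).mpr hm)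
  rw [eig, eig, if_neg (mul_ne_zero hk0 hm0), if_neg hm0, Nat.factorization_mul_of_coprime hco,
    Finsupp.prod_add_index_of_disjoint (Nat.Coprime.disjoint_primeFactors hco)]
  congr 1
  rw [Nat.Prime.factorization_pow hℓ]
  exact Finsupp.prod_single_index rfl

theorem eig_prime {ℓ : ℕ} (hℓ : ℓ.Prime) : eig e c ℓ = c ℓ := by
  have h := eig_pow_mul e c hℓ 1 (m := 1) hℓ.not_dvd_one
  rwa [pow_one, mul_one, eig_one, mul_one] at h

theorem isEigensystem_eig : IsEigensystem e (eig e c) := by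
  refine ⟨eig_one e c, fun ℓ hℓ n => ?_⟩
  rw [eig_prime e c hℓ]
  rcases eq_or_ne n 0 with rfl | hn
  · rw [mul_zero, Nat.zero_div, if_pos (dvd_zero _), eig_zero, mul_zero, mul_zero, add_zero]
  obtain ⟨k, m, hm, rfl⟩ := Nat.exists_eq_pow_mul_and_not_dvd hn ℓ hℓ.ne_one
  have h1 : ℓ * (ℓ ^ k * m) = ℓ ^ (k + 1) * m := by ring
  rw [h1, eig_pow_mul e c hℓ _ hm, eig_pow_mul e c hℓ _ hm]
  have h2 : (if ℓ ∣ ℓ ^ k * m then eig e c (ℓ ^ k * m / ℓ) else 0) =
      (if k = 0 then 0 else ppow e c ℓ (k - 1)) * eig e c m := by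
    rcases k with _ | k
    · rw [pow_zero, one_mul, if_neg hm, if_pos rfl, zero_mul]
    · have h3 : ℓ ^ (k + 1) * m = ℓ * (ℓ ^ k * m) := by ring
      rw [if_pos (h3 ▸ dvd_mul_right _ _), h3, Nat.mul_div_cancel_left _ hℓ.pos,
        eig_pow_mul e c hℓ _ hm, if_neg (Nat.succ_ne_zero k), Nat.add_sub_cancel]
  rw [h2]
  linear_combination eig e c m * ppow_succ e c ℓ k

end Exists

/-- Existence of an eigensystem with prescribed values at the primes. -/
theorem exists_eigensystem {R : Type*} [CommRing R] (e c : ℕ → R) :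
    ∃ a : ℕ → R, a 0 = 0 ∧ IsEigensystem e a ∧ ∀ ℓ : ℕ, ℓ.Prime → a ℓ = c ℓ :=
  ⟨eig e c, eig_zero e c, isEigensystem_eig e c, fun _ hℓ => eig_prime e c hℓ⟩

/-- Uniqueness of eigensystems. -/
theorem eigensystem_unique {R : Type*} [CommRing R] {e a a' : ℕ → R} (h : IsEigensystem e a)
    (h' : IsEigensystem e a') (h0 : a 0 = a' 0) (hp : ∀ ℓ : ℕ, ℓ.Prime → a ℓ = a' ℓ) (n : ℕ) :
    a n = a' n := by
  induction n using Nat.strongRecOn with
  | ind n ih =>
    rcases Nat.lt_or_ge n 2 with hn | hn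
    · interval_cases n
      · exact h0
      · rw [h.1, h'.1]
    · obtain ⟨ℓ, hℓ, m, rfl⟩ := Nat.exists_prime_and_dvd (show n ≠ 1 by omega)
      have hm : 0 < m := by
        rcases Nat.eq_zero_or_pos m with rfl | hm
        · omega
        · exact hm
      have hlt : m < ℓ * m := by nlinarith [hℓ.two_le]
      have hlt2 : m / ℓ < ℓ * m := lt_of_le_of_lt (Nat.div_le_self _ _) hlt
      have h1 := h.2 ℓ hℓ m
      have h2 := h'.2 ℓ hℓ m
      rw [← hp ℓ hℓ, ← ih m hlt, ← ih (m / ℓ) hlt2] at h2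
      exact add_right_cancel (h1.trans h2.symm)

theorem isEigensystem_map {R S : Type*} [CommRing R] [CommRing S] (f : R →+* S) {e a : ℕ → R}
    (h : IsEigensystem e a) : IsEigensystem (fun n => f (e n)) fun n => f (a n) := by
  refine ⟨by simp only [h.1, map_one], fun ℓ hℓ n => ?_⟩
  simp only
  rw [← map_mul, ← h.2 ℓ hℓ n, map_add, map_mul]
  split_ifs
  · rfl
  · rw [map_zero]

/-- Congruences at the primes propagate. -/
theorem congr_of_primes {e e' a a' : ℕ → ℤ} {m : ℕ} (h : IsEigensystem e a)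
    (h' : IsEigensystem e' a') (h0 : a 0 = a' 0)
    (he : ∀ ℓ : ℕ, ℓ.Prime → (m : ℤ) ∣ e ℓ - e' ℓ)
    (ha : ∀ ℓ : ℕ, ℓ.Prime → (m : ℤ) ∣ a ℓ - a' ℓ) (n : ℕ) : (m : ℤ) ∣ a n - a' n := by
  have h1 := isEigensystem_map (Int.castRingHom (ZMod m)) h
  have h2 := isEigensystem_map (Int.castRingHom (ZMod m)) h'
  have h3 : IsEigensystem (fun n => Int.castRingHom (ZMod m) (e n))
      fun n => Int.castRingHom (ZMod m) (a' n) := by
    refine ⟨h2.1, fun ℓ hℓ n => ?_⟩
    have h4 : Int.castRingHom (ZMod m) (e ℓ) = Int.castRingHom (ZMod m) (e' ℓ) := by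
      rw [← sub_eq_zero, ← map_sub]
      exact (ZMod.intCast_zmod_eq_zero_iff_dvd _ _).mpr (he ℓ hℓ)
    have h5 := h2.2 ℓ hℓ n
    simp only [h4]
    exact h5
  have h6 := eigensystem_unique h1 h3 (by rw [h0]) (fun ℓ hℓ => by
    rw [← sub_eq_zero, ← map_sub]
    exact (ZMod.intCast_zmod_eq_zero_iff_dvd _ _).mpr (ha ℓ hℓ)) n
  rw [← ZMod.intCast_zmod_eq_zero_iff_dvd]
  have h7 : ((a n - a' n : ℤ) : ZMod m) = Int.castRingHom (ZMod m) (a n) -
      Int.castRingHom (ZMod m) (a' n) := by simp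
  rw [h7, h6, sub_self]

end Fermat.Agent.Ext.E46
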