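import Fermat.Agent.RTE.Deplete
import Fermat.Prelude.Def_FormalHecke_Eigensystem

/-!
# Depletion of an eigenform of squarefree level at all primes dividing the level
-/

set_option autoImplicit false

noncomputable section

open CongruenceSubgroup ModularFormClass FermatAgent.HeckeEigen
open Fermat.Agent.HeckePar Fermat.Agent.Oldforms Fermat.Agent.RTE

namespace Fermat.Agent.Ext.E46

/-- Depletion at a prime dividing the level: only one more factor `r` in the level. -/
theorem exists_deplete_of_dvd {N : ℕ} [NeZero N] {k : ℤ} {r : ℕ} (hr : r.Prime) (hrN : r ∣ N)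
    (f : CuspForm (Gamma0 N) k) :
    ∃ f' : CuspForm (Gamma0 (r * N)) k, ∀ n, qCoeff ⇑f' n = if r ∣ n then 0 else qCoeff ⇑f n := by
  have h1 : NeZero (r * N) := ⟨mul_ne_zero hr.ne_zero (NeZero.ne N)⟩
  obtain ⟨p, hp⟩ : ∃ p : Nat.Primes, (p : ℕ) = r := ⟨⟨r, hr⟩, rfl⟩
  refine ⟨restr (r * N) (dvd_mul_left N r) k f -
    V k hr.ne_zero (rfl : r * N = r * N) (heckeOp N k p f), fun n => ?_⟩
  rw [qCoeff_sub, coe_restr, qCoeff_V]
  split_ifs with hn
  · obtain ⟨m, rfl⟩ := hn
    rw [Nat.mul_div_cancel_left _ hr.pos, qCoeff_heckeOp, hp, if_pos hrN, add_zero]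
    exact sub_self _
  · rw [sub_zero]

/-- Depletion at a finite set of primes dividing the level. -/
theorem exists_deplete_finset {N : ℕ} [NeZero N] {k : ℤ} (f : CuspForm (Gamma0 N) k)
    (T : Finset ℕ) : (∀ r ∈ T, r.Prime ∧ r ∣ N) →
    ∃ f' : CuspForm (Gamma0 ((∏ r ∈ T, r) * N)) k, ∀ n, qCoeff ⇑f' n =
      if ∃ r ∈ T, r ∣ n then 0 else qCoeff ⇑f n := by
  classical
  induction T using Finset.induction_on with
  | empty =>
    intro _
    obtain ⟨f', hf'⟩ := exists_level_cast (show N = (∏ r ∈ (∅ : Finset ℕ), r) * N by simp) f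
    exact ⟨f', fun n => by rw [hf']; simp⟩
  | insert r T hrT ih =>
    intro hT
    obtain ⟨f1, hf1⟩ := ih fun s hs => hT s (Finset.mem_insert_of_mem hs)
    obtain ⟨hr, hrN⟩ := hT r (Finset.mem_insert_self r T)
    have h0 : (∏ r ∈ T, r) ≠ 0 := Finset.prod_ne_zero_iff.mpr fun s hs =>
      (hT s (Finset.mem_insert_of_mem hs)).1.ne_zero
    have : NeZero ((∏ r ∈ T, r) * N) := ⟨mul_ne_zero h0 (NeZero.ne N)⟩
    obtain ⟨f2, hf2⟩ := exists_deplete_of_dvd hr (hrN.mul_left _) f1
    obtain ⟨f3, hf3⟩ := exists_level_cast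
      (show r * ((∏ r ∈ T, r) * N) = (∏ r ∈ insert r T, r) * N by
        rw [Finset.prod_insert hrT]; ring) f2
    refine ⟨f3, fun n => ?_⟩
    rw [hf3, hf2, hf1]
    by_cases h1 : r ∣ n
    · rw [if_pos h1, if_pos ⟨r, Finset.mem_insert_self r T, h1⟩]
    · rw [if_neg h1]
      by_cases h2 : ∃ s ∈ T, s ∣ n
      · obtain ⟨s, hs, hsn⟩ := h2
        rw [if_pos ⟨s, hs, hsn⟩, if_pos ⟨s, Finset.mem_insert_of_mem hs, hsn⟩]
      · rw [if_neg h2, if_neg]
        rintro ⟨s, hs, hsn⟩
        rcases Finset.mem_insert.mp hs with rfl | hs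
        · exact h1 hsn
        · exact h2 ⟨s, hs, hsn⟩

/-- The depletion of a normalised eigenform of squarefree level `N` with integral eigenvalues away
from `N` is a form of level `N ^ 2` whose coefficients are the formal eigensystem. -/
theorem exists_depleted {N : ℕ} [NeZero N] (hsq : Squarefree N) (f : CuspForm (Gamma0 N) 2)
    (hf : f.IsNormalizedEigenform) {b : ℕ → ℤ} (hb0 : b 0 = 0)
    (hb : FormalHecke.IsEigensystem (fun ℓ => if ℓ ∣ N then 0 else (ℓ : ℤ)) b)
    (hbad : ∀ ℓ : ℕ, ℓ.Prime → ℓ ∣ N → b ℓ = 0)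
    (hgood : ∀ ℓ : ℕ, ℓ.Prime → ¬ ℓ ∣ N → qCoeff ⇑f ℓ = (b ℓ : ℂ)) :
    ∃ F : CuspForm (Gamma0 (N ^ 2)) 2, ∀ n, (b n : ℂ) = qCoeff ⇑F n := by
  classical
  have hN0 : N ≠ 0 := NeZero.ne N
  obtain ⟨F1, hF1⟩ := exists_deplete_finset f N.primeFactors fun r hr =>
    ⟨Nat.prime_of_mem_primeFactors hr, Nat.dvd_of_mem_primeFactors hr⟩
  obtain ⟨F, hF⟩ := exists_level_cast (show (∏ r ∈ N.primeFactors, r) * N = N ^ 2 by
    rw [Nat.prod_primeFactors_of_squarefree hsq, pow_two]) F1
  refine ⟨F, fun n => ?_⟩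
  rw [hF, hF1]
  have hrec := fun p => heckeOp_eq_of_isNormalizedEigenform hf p
  induction n using Nat.strongRecOn with
  | ind n ih =>
    rcases Nat.lt_or_ge n 2 with hn | hn
    · interval_cases n
      · rw [hb0, qCoeff_at_zero]; simp
      · rw [hb.1, if_neg, hf.qCoeff_one]
        · simp
        · rintro ⟨r, hr, hr1⟩
          exact (Nat.prime_of_mem_primeFactors hr).one_lt.ne' (Nat.dvd_one.mp hr1)
    · obtain ⟨p, hp, m, rfl⟩ := Nat.exists_prime_and_dvd (show n ≠ 1 by omega)
      have hm : m ≠ 0 := by rintro rfl; omega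
      have hmpos : 0 < m := Nat.pos_of_ne_zero hm
      have hlt : m < p * m := by nlinarith [hp.two_le]
      have hlt2 : m / p < p * m := lt_of_le_of_lt (Nat.div_le_self _ _) hlt
      have h1 := hb.2 p hp m
      by_cases hpN : p ∣ N
      · rw [if_pos ⟨p, Nat.mem_primeFactors.mpr ⟨hp, hpN, hN0⟩, dvd_mul_right p m⟩]
        simp only [if_pos hpN, hbad p hp hpN, zero_mul, add_zero] at h1
        rw [h1, Int.cast_zero]
      · have h2 := coeff_rec_of_eigen hrec ⟨p, hp⟩ m
        simp only [if_neg hpN] at h1 h2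
        have hstep : ∀ k : ℕ, (∃ r ∈ N.primeFactors, r ∣ p * k) ↔ ∃ r ∈ N.primeFactors, r ∣ k := by
          intro k
          constructor
          · rintro ⟨r, hr, hrk⟩
            refine ⟨r, hr, ?_⟩
            have hrp := Nat.prime_of_mem_primeFactors hr
            rcases hrp.dvd_mul.mp hrk with h | h
            · exact absurd (((Nat.prime_dvd_prime_iff_eq hrp hp).mp h) ▸
                Nat.dvd_of_mem_primeFactors hr) hpN
            · exact h
          · rintro ⟨r, hr, hrk⟩
            exact ⟨r, hr, hrk.mul_left p⟩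
        have e1 : (b (p * m) : ℂ) = b p * b m -
            p * (if p ∣ m then (b (m / p) : ℂ) else 0) := by
          have := congrArg (Int.cast : ℤ → ℂ) h1
          push_cast at this
          rw [← this]
          split_ifs <;> ring
        rw [e1, ih m hlt]
        simp only [hstep]
        by_cases hc : ∃ r ∈ N.primeFactors, r ∣ m
        · rw [if_pos hc, if_pos hc]
          by_cases hpm : p ∣ m
          · rw [if_pos hpm, ih (m / p) hlt2, if_pos]
            · ring
            · rw [← hstep, Nat.mul_div_cancel' hpm]; exact hc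
          · rw [if_neg hpm]; ring
        · rw [if_neg hc, if_neg hc, h2, hgood p hp hpN]
          by_cases hpm : p ∣ m
          · rw [if_pos hpm, if_pos hpm, ih (m / p) hlt2, if_neg]
            rw [← hstep, Nat.mul_div_cancel' hpm]; exact hc
          · rw [if_neg hpm, if_neg hpm]

end Fermat.Agent.Ext.E46
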