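import Fermat.Agent.Ext.E46.Eigensystem
import Fermat.Agent.Ext.E46.Deplete
import Fermat.Agent.S49
import Fermat.Prelude.Def_WeierstrassCurve_Mlc1RowStatement

/-!
# S46 from modularity

If a curve `W` over the integers is modular of its (squarefree) conductor level `N`, the depletion
of its newform at the primes dividing `N` has integral coefficients and level `N ^ 2`; modulo `3` its
coefficients agree with the eigensystem with the character `χ₋₃` and the same eigenvalues, since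
`χ₋₃(ℓ) = ℓ` modulo `3`.
-/

set_option autoImplicit false

noncomputable section

open CongruenceSubgroup ModularFormClass WeierstrassCurve EisensteinWeightOne

namespace Fermat.Agent.Ext.E46

/-- A curve which is modular of its exact conductor level satisfies the conclusion of `S46`. -/
theorem s46_of {W : WeierstrassCurve ℤ} (h : Mlc1IsModularModelOfExactConductorLevel W) :
    ∃ (N : ℕ) (_ : NeZero N) (a : ℕ → ℤ),
      CuspForm.HasIntegralBasis N ∧
      FormalHecke.IsEigensystem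
        (fun ℓ => if ℓ ∣ N then 0 else ((chiNegThree ℓ : ℤ) : ℤ)) a ∧
      CuspForm.IsLatticeRealized N a ∧
      (∀ q : ℕ, q.Prime → q ≠ 3 → ¬ q ^ 3 ∣ N) ∧
      ∀ ℓ : ℕ, ℓ.Prime → W.IsGoodPrimeFor ℓ → ¬ ℓ ∣ N → ℓ ≠ 3 →
        (3 : ℤ) ∣ (a ℓ - W.apOfModel ℓ) := by
  obtain ⟨N, hN0, hsq, hbad, f, hf, hfp⟩ := h
  have hNZ : NeZero N := ⟨hN0.ne'⟩
  have hdvd : ∀ ℓ : ℕ, ℓ.Prime → (ℓ ∣ N ^ 2 ↔ ℓ ∣ N) := fun ℓ hℓ =>
    ⟨fun h => hℓ.dvd_of_dvd_pow h, fun h => h.trans (dvd_pow_self N two_ne_zero)⟩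
  obtain ⟨a, ha0, ha, hac⟩ := exists_eigensystem
    (fun ℓ => if ℓ ∣ N ^ 2 then 0 else ((chiNegThree ℓ : ℤ) : ℤ))
    (fun ℓ => if ℓ ∣ N then 0 else W.apOfModel ℓ)
  obtain ⟨b, hb0, hb, hbc⟩ := exists_eigensystem
    (fun ℓ => if ℓ ∣ N then 0 else (ℓ : ℤ))
    (fun ℓ => if ℓ ∣ N then 0 else W.apOfModel ℓ)
  obtain ⟨F, hF⟩ := exists_depleted hsq f hf hb0 hb
    (fun ℓ hℓ hd => by rw [hbc ℓ hℓ, if_pos hd])
    (fun ℓ hℓ hd => by
      rw [hbc ℓ hℓ, if_neg hd]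
      exact hfp ℓ hℓ (fun h => hd ((hbad ℓ hℓ).mpr h)) hd)
  have hab : ∀ n, (3 : ℤ) ∣ a n - b n := by
    refine congr_of_primes (m := 3) ha hb (ha0.trans hb0.symm) (fun ℓ hℓ => ?_) (fun ℓ hℓ => ?_)
    · by_cases hd : ℓ ∣ N
      · simp only [(hdvd ℓ hℓ).mpr hd, hd, if_true, sub_zero, dvd_zero]
      · have hd2 : ¬ ℓ ∣ N ^ 2 := fun h => hd ((hdvd ℓ hℓ).mp h)
        simp only [hd, hd2, if_false]
        exact (dvd_sub_comm).mp (S49.three_dvd_chi ℓ)
    · rw [hac ℓ hℓ, hbc ℓ hℓ, sub_self]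
      exact dvd_zero _
  refine ⟨N ^ 2, ⟨pow_ne_zero 2 hN0.ne'⟩, a, ?_, ha, ⟨F, fun n => ?_, b, hF, fun n => ?_⟩, ?_, ?_⟩
  · have : NeZero (N ^ 2) := ⟨pow_ne_zero 2 hN0.ne'⟩
    exact hasIntegralBasis (N ^ 2)
  · rw [← hF n]
    exact Subring.mem_bot.mpr ⟨b n, rfl⟩
  · have h1 := S49.three_dvd_bridge a n
    have h2 : b n - (bridgeProduct a).coeff n =
        -(((bridgeProduct a).coeff n - a n) + (a n - b n)) := by ring
    rw [h2]
    exact (dvd_neg).mpr (dvd_add h1 (hab n))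
  · intro q hq _ h3
    have h4 : q * q ∣ N := by
      have h5 : (q ^ 3).factorization q ≤ (N ^ 2).factorization q :=
        (Nat.factorization_le_iff_dvd (pow_ne_zero 3 hq.ne_zero) (pow_ne_zero 2 hN0.ne')).mpr h3 q
      rw [Nat.factorization_pow, Nat.factorization_pow] at h5
      simp only [Finsupp.smul_apply, smul_eq_mul, hq.factorization_self] at h5
      rw [← sq]
      exact (hq.pow_dvd_iff_le_factorization hN0.ne').mpr (by omega)
    exact hq.one_lt.ne' (Nat.isUnit_iff.mp (hsq q h4))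
  · intro ℓ hℓ _ hd _
    have hd' : ¬ ℓ ∣ N := fun h => hd ((hdvd ℓ hℓ).mpr h)
    rw [hac ℓ hℓ, if_neg hd', sub_self]
    exact dvd_zero _

end Fermat.Agent.Ext.E46

end
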